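import Mathlib
import Fermat.Prelude.Def_ModularCurve_ArithmeticGalois
import Fermat.Prelude.Def_AlgebraicCurve_Correspondence
import Fermat.Prelude.Def_ModularCurve_X0ModL

/-!
# S48 / RES (Tower A1) — sub-tower A1-FF: the function field of `X₁(M)` and its operators

FROZEN interface definitions (RES deputy helper168; row-lead decision D1/D2 of `coord/S48-lead.md`).
Namespace `Fermat.Agent.S48.F1`.  Definitions only + the trivial membership lemmas; no `sorry`.
Design, orientation of the operators and the list of statements: `coord/S48-F1.md`.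

## The field

For `a : ZMod M`, `a ≠ 0`, the **division value** `P_a` is the rational (even integral) `q`-series

  `P_a = Δ⁻¹ · ∑_{n ≥ 1} c_a(n) qⁿ`,  `c_a(n) = ∑_{m ∣ n, m ≡ a (M)} (n/m)^11 + ∑_{m ∣ n, m ≡ -a (M)} (n/m)^11`.

Analytically `∑ c_a(n) qⁿ = C₁₂⁻¹ · ∑_{(m, n') ∈ ℤ², m ≡ a (M)} (m z + n')⁻¹²`
(`= C₁₂⁻¹ · S29.H332.wEis (fun v => if (v 0 : ZMod M) = a then 1 else 0) 12 z`,
`C_k = (-2πi)^k / (k-1)!`): a modular form of weight `12` on `Γ₁(M)`, **no constant term**, and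
`P_a ∘ γ = P_{a · γ₀₀}` for `γ ∈ Γ₀(M)` (`wEis_slash`).  `P_a = P_{-a}`.

  `F1 M := ℚ(j(q^d) (d ∣ M), P_a (a ≠ 0)) ⊆ ℚ((q))`   (⊇ the Prelude field `modularFunctionFieldFull M`)

is the function field of `X₁(M)` in the `ℚ`-model in which the cusp `∞` and the `q`-expansion at `∞`
are rational.  All generators lie in `ℤ((q))` and are holomorphic on the upper half plane.
-/

set_option autoImplicit false

noncomputable section

open PowerSeries HahnSeries IntermediateField ModularCurve AlgebraicCurve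

namespace Fermat.Agent.S48.F1

/-! ### The division values -/

/-- `c_{a,k}(n) = ∑_{m ∣ n, m ≡ a (M)} (n/m)^(k-1) + (-1)^k ∑_{m ∣ n, m ≡ -a (M)} (n/m)^(k-1)`
(and `c_{a,k}(0) = 0`). -/
def divCoeff (M : ℕ) (a : ZMod M) (k n : ℕ) : ℤ :=
  ∑ m ∈ n.divisors,
    ((if ((m : ℕ) : ZMod M) = a then ((n / m : ℕ) : ℤ) ^ (k - 1) else 0) +
      (if ((m : ℕ) : ZMod M) = -a then (-1) ^ k * ((n / m : ℕ) : ℤ) ^ (k - 1) else 0))

/-- The `q`-expansion `∑ c_{a,k}(n) qⁿ` of the weight-`k` Eisenstein series of `Γ₁(M)` attached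
to the class `a` (sum over the lattice vectors `(m, n')` with `m ≡ a` mod `M`), normalised. -/
def divSeries (M : ℕ) (a : ZMod M) (k : ℕ) : PowerSeries ℤ :=
  PowerSeries.mk (divCoeff M a k)

@[simp]
theorem coeff_divSeries (M : ℕ) (a : ZMod M) (k n : ℕ) :
    PowerSeries.coeff n (divSeries M a k) = divCoeff M a k n := by
  simp [divSeries]

@[simp]
theorem divCoeff_zero (M : ℕ) (a : ZMod M) (k : ℕ) : divCoeff M a k 0 = 0 := by
  simp [divCoeff]

/-- `q · P_a ∈ ℤ⟦q⟧`: the numerator `∑ c_a(n) qⁿ` (weight `12`) divided by `∏ (1 - qⁿ)^24`. -/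
def divNum (M : ℕ) (a : ZMod M) : PowerSeries ℤ :=
  divSeries M a 12 * dedekindEtaUnitInv

/-- The division value `P_a = (∑ c_a(n) qⁿ) / Δ` with coefficients in any commutative ring `R`
(same shape as the Prelude `jqModC R`). -/
def divGenC (R : Type*) [CommRing R] (M : ℕ) (a : ZMod M) : LaurentSeries R :=
  HahnSeries.single (-1 : ℤ) 1 *
    HahnSeries.ofPowerSeries ℤ R ((divNum M a).map (Int.castRingHom R))

/-- The division value `P_a = (∑ c_a(n) qⁿ) / Δ ∈ ℚ((q))`. -/
def divGen (M : ℕ) (a : ZMod M) : LaurentSeries ℚ := divGenC ℚ M a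

theorem divGenC_rat (M : ℕ) (a : ZMod M) : divGenC ℚ M a = divGen M a := rfl

/-- Reduction of coefficients maps `P_a` to `P_a`. -/
theorem coeffMap_divGenC {R S : Type*} [CommRing R] [CommRing S] (f : R →+* S) (M : ℕ)
    (a : ZMod M) : coeffMap f (divGenC R M a) = divGenC S M a := by
  rw [divGenC, map_mul, coeffMap_single, map_one, coeffMap_ofPowerSeries,
    ← RingHom.comp_apply (PowerSeries.map f) (PowerSeries.map (Int.castRingHom R)),
    ← PowerSeries.map_comp, RingHom.ext_int (f.comp (Int.castRingHom R)) (Int.castRingHom S)]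
  rfl

/-- The set of division values `P_a`, `a ≠ 0`. -/
def divGens (M : ℕ) : Set (LaurentSeries ℚ) :=
  {x | ∃ a : ZMod M, a ≠ 0 ∧ x = divGen M a}

theorem divGen_mem_divGens (M : ℕ) {a : ZMod M} (ha : a ≠ 0) : divGen M a ∈ divGens M :=
  ⟨a, ha, rfl⟩

/-! ### The function field of `X₁(M)` -/

/-- The function field of `X₁(M)` over `ℚ`, inside `ℚ((q))`. -/
def F1 (M : ℕ) : IntermediateField ℚ (LaurentSeries ℚ) :=
  IntermediateField.adjoin ℚ (divisorExpansions M ∪ divGens M)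

theorem jqd_mem_F1 (M : ℕ) {d : ℕ} [NeZero d] (hd : d ∣ M) : qExpand ℚ d jq ∈ F1 M :=
  IntermediateField.subset_adjoin ℚ _ (Or.inl (mem_divisorExpansions M hd))

theorem jq_mem_F1 (M : ℕ) : jq ∈ F1 M := by
  have h := jqd_mem_F1 M (one_dvd M)
  rwa [qExpand_one_apply] at h

theorem divGen_mem_F1 (M : ℕ) {a : ZMod M} (ha : a ≠ 0) : divGen M a ∈ F1 M :=
  IntermediateField.subset_adjoin ℚ _ (Or.inr (divGen_mem_divGens M ha))

/-- The function field of `X₀(M)` (Prelude) is contained in the function field of `X₁(M)`. -/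
theorem full_le_F1 (M : ℕ) : modularFunctionFieldFull M ≤ F1 M := by
  rw [modularFunctionFieldFull, IntermediateField.adjoin_le_iff]
  exact fun x hx => IntermediateField.subset_adjoin ℚ _ (Or.inl hx)

/-- The set of division values `P_a`, `a ≠ 0`, over a field `K`. -/
def divGensC (K : Type*) [Field K] (M : ℕ) : Set (LaurentSeries K) :=
  {x | ∃ a : ZMod M, a ≠ 0 ∧ x = divGenC K M a}

/-- The analogue of `F1 M` over an arbitrary field `K` (for `K` of characteristic `p ∤ M`: the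
function field of the reduction of `X₁(M)`), inside `K((q))`; cf. the Prelude
`modularFunctionFieldFullC`. -/
def F1C (K : Type*) [Field K] (M : ℕ) : IntermediateField K (LaurentSeries K) :=
  IntermediateField.adjoin K (divisorExpansionsC K M ∪ divGensC K M)

theorem F1C_rat (M : ℕ) : F1C ℚ M = F1 M := rfl

theorem fullC_le_F1C (K : Type*) [Field K] (M : ℕ) : modularFunctionFieldFullC K M ≤ F1C K M := by
  rw [modularFunctionFieldFullC, IntermediateField.adjoin_le_iff]
  exact fun x hx => IntermediateField.subset_adjoin K _ (Or.inl hx)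

theorem divGenC_mem_F1C (K : Type*) [Field K] (M : ℕ) {a : ZMod M} (ha : a ≠ 0) :
    divGenC K M a ∈ F1C K M :=
  IntermediateField.subset_adjoin K _ (Or.inr ⟨a, ha, rfl⟩)

/-- The analogue of `F1p M p` over an arbitrary field `K`. -/
def F1pC (K : Type*) [Field K] (M p : ℕ) [NeZero p] : IntermediateField K (LaurentSeries K) :=
  F1C K M ⊔ (F1C K M).map (qExpandAlgHomC K p)

/-- The function field of `X₁(M; p)` (level `Γ₁(M) ∩ Γ₀(p)`): the compositum of `F1 M` and of its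
image under `q ↦ q^p`. -/
def F1p (M p : ℕ) [NeZero p] : IntermediateField ℚ (LaurentSeries ℚ) :=
  F1 M ⊔ (F1 M).map (qExpandₐ p)

theorem F1_le_F1p (M p : ℕ) [NeZero p] : F1 M ≤ F1p M p := le_sup_left

theorem qExpand_mem_F1p (M p : ℕ) [NeZero p] {x : LaurentSeries ℚ} (hx : x ∈ F1 M) :
    qExpand ℚ p x ∈ F1p M p :=
  (le_sup_right : (F1 M).map (qExpandₐ p) ≤ F1p M p)
    ((IntermediateField.mem_map _).2 ⟨x, hx, rfl⟩)

/-! ### Generic base change of an inclusion and of `q ↦ q^p` -/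

section Generic

variable (L : Type*) [Field L] [Algebra ℚ L]
variable {F₀ F₁ : IntermediateField ℚ (LaurentSeries ℚ)}

theorem lbc_mono (h : F₀ ≤ F₁) : laurentBaseChange L F₀ ≤ laurentBaseChange L F₁ := by
  rw [laurentBaseChange, IntermediateField.adjoin_le_iff]
  rintro x ⟨y, hy, rfl⟩
  exact coeffEmb_mem_laurentBaseChange L (h hy)

omit [Algebra ℚ L] in
theorem algebraMap_laurent_eq_single (a : L) :
    algebraMap L (LaurentSeries L) a = HahnSeries.single 0 a := by
  have h1 : algebraMap L (PowerSeries L) a = PowerSeries.C a := by simp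
  rw [HahnSeries.algebraMap_apply', h1, HahnSeries.ofPowerSeries_C]
  rfl

theorem qExpand_coeffEmb (p : ℕ) [NeZero p] (y : LaurentSeries ℚ) :
    qExpand L p (coeffEmb L y) = coeffEmb L (qExpand ℚ p y) := by
  ext k
  by_cases hk : (p : ℤ) ∣ k
  · obtain ⟨m, rfl⟩ := hk
    rw [qExpand_coeff_mul, coeffEmb_coeff, coeffEmb_coeff, qExpand_coeff_mul]
  · rw [qExpand_coeff_of_not_dvd p _ hk, coeffEmb_coeff, qExpand_coeff_of_not_dvd p _ hk,
      map_zero]

theorem qExpand_mem_lbc (p : ℕ) [NeZero p] (hF : ∀ y ∈ F₀, qExpand ℚ p y ∈ F₁)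
    {x : LaurentSeries L} (hx : x ∈ laurentBaseChange L F₀) :
    qExpand L p x ∈ laurentBaseChange L F₁ := by
  rw [mem_laurentBaseChange_iff] at hx
  induction hx using Subfield.closure_induction with
  | mem y hy =>
      rcases hy with ⟨a, rfl⟩ | ⟨z, hz, rfl⟩
      · rw [algebraMap_laurent_eq_single, qExpand_single, mul_zero,
          ← algebraMap_laurent_eq_single]
        exact (laurentBaseChange L F₁).algebraMap_mem _
      · rw [qExpand_coeffEmb]
        exact coeffEmb_mem_laurentBaseChange L (hF z hz)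
  | one => simp
  | add x y _ _ hx hy => simpa using add_mem hx hy
  | neg x _ hx => simpa using neg_mem hx
  | inv x _ hx => simpa using inv_mem hx
  | mul x y _ _ hx hy => simpa using mul_mem hx hy

/-- Base change of an inclusion `F₀ ≤ F₁`. -/
def inclBar (h : F₀ ≤ F₁) : laurentBaseChange L F₀ →ₐ[L] laurentBaseChange L F₁ :=
  IntermediateField.inclusion (lbc_mono L h)

@[simp]
theorem coe_inclBar (h : F₀ ≤ F₁) (x : laurentBaseChange L F₀) :
    (inclBar L h x : LaurentSeries L) = (x : LaurentSeries L) :=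
  IntermediateField.coe_inclusion _ x

/-- Base change of `q ↦ q^p : F₀ → F₁`. -/
def qMapBar (p : ℕ) [NeZero p] (hF : ∀ y ∈ F₀, qExpand ℚ p y ∈ F₁) :
    laurentBaseChange L F₀ →ₐ[L] laurentBaseChange L F₁ where
  toFun x := ⟨qExpand L p (x : LaurentSeries L), qExpand_mem_lbc L p hF x.2⟩
  map_one' := Subtype.ext (map_one (qExpand L p))
  map_mul' _ _ := Subtype.ext (map_mul (qExpand L p) _ _)
  map_zero' := Subtype.ext (map_zero (qExpand L p))
  map_add' _ _ := Subtype.ext (map_add (qExpand L p) _ _)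
  commutes' a := Subtype.ext <| by
    show qExpand L p (algebraMap L (LaurentSeries L) a) = algebraMap L (LaurentSeries L) a
    rw [algebraMap_laurent_eq_single, qExpand_single, mul_zero]

@[simp]
theorem coe_qMapBar (p : ℕ) [NeZero p] (hF : ∀ y ∈ F₀, qExpand ℚ p y ∈ F₁)
    (x : laurentBaseChange L F₀) :
    (qMapBar L p hF x : LaurentSeries L) = qExpand L p (x : LaurentSeries L) :=
  rfl

end Generic

/-! ### Generic correspondence operator on `Pic⁰` (Prelude pattern `heckeOperatorAlong`) -/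

section Corr

variable {K F F' : Type*} [Field K] [Field F] [Field F'] [Algebra K F] [Algebra K F']

/-- The inputs needed to define `ψ_* ∘ φ^*` on `Pic⁰` (same list as the Prelude
`HeckeInputsAlong`, for an arbitrary pair `φ ψ : F →ₐ[K] F'`). -/
def CorrInputs (φ ψ : F →ₐ[K] F') : Prop :=
  ∃ (hφ : φ.toRingHom.IsIntegral) (_ : ψ.toRingHom.IsIntegral)
    (_ : HasPrincipalDivisors K F') (hfin : FiniteAlong K ψ),
    FundamentalIdentityAlong K φ hφ ∧ NormFormulaAlong K ψ hfin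

open Classical in
/-- `ψ_* ∘ φ^* : Pic⁰ F → Pic⁰ F` (and `0` if the inputs fail, as in the Prelude). -/
def corrOp (φ ψ : F →ₐ[K] F') : Pic0 K F →+ Pic0 K F :=
  if h : CorrInputs φ ψ then
    haveI := h.snd.snd.fst
    Pic0.correspondence φ ψ h.fst h.snd.fst h.snd.snd.snd.snd.1 h.snd.snd.snd.fst
      h.snd.snd.snd.snd.2
  else 0

theorem corrOp_eq (φ ψ : F →ₐ[K] F') (hφ : φ.toRingHom.IsIntegral)
    (hψ : ψ.toRingHom.IsIntegral) [hP : HasPrincipalDivisors K F']
    (hFI : FundamentalIdentityAlong K φ hφ) (hfin : FiniteAlong K ψ)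
    (hN : NormFormulaAlong K ψ hfin) :
    corrOp φ ψ = Pic0.correspondence φ ψ hφ hψ hFI hfin hN := by
  have h : CorrInputs φ ψ := ⟨hφ, hψ, hP, hfin, hFI, hN⟩
  rw [corrOp, dif_pos h]

end Corr

/-! ### `J₁(M)`, Hecke and diamond operators -/

section Operators

variable (L : Type*) [Field L] [Algebra ℚ L] (M : ℕ)

/-- `L · F1 M ⊆ L((q))`. -/
abbrev F1L : IntermediateField L (LaurentSeries L) := laurentBaseChange L (F1 M)

/-- `L · F1p M p ⊆ L((q))`. -/
abbrev F1pL (p : ℕ) [NeZero p] : IntermediateField L (LaurentSeries L) :=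
  laurentBaseChange L (F1p M p)

/-- `α`: the inclusion `L·F1(M) → L·F1(M; p)` (the degeneracy map `z ↦ z`). -/
def alpha1 (p : ℕ) [NeZero p] : F1L L M →ₐ[L] F1pL L M p :=
  inclBar L (F1_le_F1p M p)

/-- `β`: `q ↦ q^p : L·F1(M) → L·F1(M; p)` (the degeneracy map `z ↦ p z`). -/
def beta1 (p : ℕ) [NeZero p] : F1L L M →ₐ[L] F1pL L M p :=
  qMapBar L p (fun _ hy => qExpand_mem_F1p M p hy)

@[simp]
theorem coe_alpha1 (p : ℕ) [NeZero p] (x : F1L L M) :
    (alpha1 L M p x : LaurentSeries L) = (x : LaurentSeries L) :=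
  coe_inclBar L _ x

@[simp]
theorem coe_beta1 (p : ℕ) [NeZero p] (x : F1L L M) :
    (beta1 L M p x : LaurentSeries L) = qExpand L p (x : LaurentSeries L) :=
  rfl

/-- The Hecke correspondence `T_p = α_* ∘ β^*` on `Pic⁰(L·F1(M))` (on points of `Γ₁(M)\ℍ`:
`[z] ↦ ∑_b [(z + b)/p] + ⟨p⟩[p z]`). -/
def heckeL (p : ℕ) [NeZero p] : Pic0 L (F1L L M) →+ Pic0 L (F1L L M) :=
  corrOp (beta1 L M p) (alpha1 L M p)

/-- The transposed Hecke correspondence `T_p^t = β_* ∘ α^*` (`= ⟨p⟩⁻¹ T_p`). -/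
def heckeTL (p : ℕ) [NeZero p] : Pic0 L (F1L L M) →+ Pic0 L (F1L L M) :=
  corrOp (alpha1 L M p) (beta1 L M p)

/-- `σ` is the diamond automorphism `δ_d` of `L·F1(M)`: it fixes the function field of `X₀(M)` and
maps `P_a` to `P_{d a}`.  (Analytically `δ_d f = f ∘ γ`, `γ ∈ Γ₀(M)` with `γ₀₀ ≡ d` mod `M`.) -/
def IsDiamond (d : (ZMod M)ˣ) (σ : F1L L M ≃ₐ[L] F1L L M) : Prop :=
  (∀ x : F1L L M, (x : LaurentSeries L) ∈ laurentBaseChange L (modularFunctionFieldFull M) →
      σ x = x) ∧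
    ∀ (a : ZMod M) (x y : F1L L M), a ≠ 0 →
      (x : LaurentSeries L) = coeffEmb L (divGen M a) →
      (y : LaurentSeries L) = coeffEmb L (divGen M ((d : ZMod M) * a)) → σ x = y

open Classical in
/-- The diamond automorphism `δ_d : P_a ↦ P_{d a}` of `L·F1(M)` (the identity if it does not
exist; it is unique, see `coord/S48-F1.md`). -/
def diamondAut (d : (ZMod M)ˣ) : F1L L M ≃ₐ[L] F1L L M :=
  if h : ∃ σ : F1L L M ≃ₐ[L] F1L L M, IsDiamond L M d σ then h.choose else AlgEquiv.refl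

theorem isDiamond_diamondAut (d : (ZMod M)ˣ)
    (h : ∃ σ : F1L L M ≃ₐ[L] F1L L M, IsDiamond L M d σ) :
    IsDiamond L M d (diamondAut L M d) := by
  rw [diamondAut, dif_pos h]
  exact h.choose_spec

/-- The diamond operator `⟨d⟩` on `Pic⁰(L·F1(M))`: the action of `δ_d` (on points of `Γ₁(M)\ℍ`:
`[z] ↦ [γ z]`, `γ ∈ Γ₀(M)` with `γ₁₁ ≡ d` mod `M`). -/
def diamondL (d : (ZMod M)ˣ) : Pic0 L (F1L L M) →+ Pic0 L (F1L L M) :=
  DistribSMul.toAddMonoidHom (Pic0 L (F1L L M)) (SemilinearAut.ofAlgAut (diamondAut L M d))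

theorem diamondL_apply (d : (ZMod M)ˣ) (x : Pic0 L (F1L L M)) :
    diamondL L M d x = SemilinearAut.ofAlgAut (diamondAut L M d) • x :=
  rfl

end Operators

section Bar

variable (M : ℕ)

/-- `ℚ̄ · F1 M`, the function field of `X₁(M)` over `ℚ̄`. -/
abbrev F1Bar : IntermediateField (AlgebraicClosure ℚ) (LaurentSeries (AlgebraicClosure ℚ)) :=
  F1L (AlgebraicClosure ℚ) M

/-- `J₁(M)(ℚ̄) = Pic⁰` of the function field of `X₁(M)` over `ℚ̄`, with the Prelude's
(coefficientwise) Galois action. -/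
abbrev J1 : Type _ := Pic0 (AlgebraicClosure ℚ) (F1Bar M)

example : DistribMulAction (AlgebraicClosure ℚ ≃ₐ[ℚ] AlgebraicClosure ℚ) (J1 M) := inferInstance

/-- `T_p = α_* β^*` on `J₁(M)` as a `ℤ`-linear map (`0` for `p = 0`). -/
def hecke1 (p : ℕ) : Module.End ℤ (J1 M) :=
  if h : p = 0 then 0 else
    haveI : NeZero p := ⟨h⟩
    (heckeL (AlgebraicClosure ℚ) M p).toIntLinearMap

theorem hecke1_eq (p : ℕ) [NeZero p] :
    hecke1 M p = (heckeL (AlgebraicClosure ℚ) M p).toIntLinearMap := by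
  rw [hecke1, dif_neg (NeZero.ne p)]

/-- `T_p^t = β_* α^*` on `J₁(M)` as a `ℤ`-linear map (`0` for `p = 0`). -/
def hecke1T (p : ℕ) : Module.End ℤ (J1 M) :=
  if h : p = 0 then 0 else
    haveI : NeZero p := ⟨h⟩
    (heckeTL (AlgebraicClosure ℚ) M p).toIntLinearMap

theorem hecke1T_eq (p : ℕ) [NeZero p] :
    hecke1T M p = (heckeTL (AlgebraicClosure ℚ) M p).toIntLinearMap := by
  rw [hecke1T, dif_neg (NeZero.ne p)]

/-- `⟨d⟩` on `J₁(M)` as a `ℤ`-linear map. -/
def diamond1 (d : (ZMod M)ˣ) : Module.End ℤ (J1 M) :=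
  (diamondL (AlgebraicClosure ℚ) M d).toIntLinearMap

theorem diamond1_apply (d : (ZMod M)ˣ) (x : J1 M) :
    diamond1 M d x = SemilinearAut.ofAlgAut (diamondAut (AlgebraicClosure ℚ) M d) • x :=
  rfl

/-- `⟨d⟩⁻¹` on `J₁(M)` as a `ℤ`-linear map. -/
def diamond1Inv (d : (ZMod M)ˣ) : Module.End ℤ (J1 M) :=
  (DistribSMul.toAddMonoidHom (J1 M)
    (SemilinearAut.ofAlgAut (diamondAut (AlgebraicClosure ℚ) M d))⁻¹).toIntLinearMap

theorem diamond1Inv_apply (d : (ZMod M)ˣ) (x : J1 M) :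
    diamond1Inv M d x = (SemilinearAut.ofAlgAut (diamondAut (AlgebraicClosure ℚ) M d))⁻¹ • x :=
  rfl

@[simp]
theorem diamond1Inv_diamond1 (d : (ZMod M)ˣ) (x : J1 M) :
    diamond1Inv M d (diamond1 M d x) = x := by
  rw [diamond1Inv_apply, diamond1_apply, inv_smul_smul]

@[simp]
theorem diamond1_diamond1Inv (d : (ZMod M)ˣ) (x : J1 M) :
    diamond1 M d (diamond1Inv M d x) = x := by
  rw [diamond1Inv_apply, diamond1_apply, smul_inv_smul]

/-- The unit of `ZMod M` attached to an integer prime to `M` (and `1` otherwise). -/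
def unitOf (n : ℕ) : (ZMod M)ˣ :=
  if h : Nat.Coprime n M then ZMod.unitOfCoprime n h else 1

theorem coe_unitOf {n : ℕ} (h : Nat.Coprime n M) : ((unitOf M n : (ZMod M)ˣ) : ZMod M) = n := by
  rw [unitOf, dif_pos h, ZMod.coe_unitOfCoprime]

/-- The `m`-torsion of `J₁(M)`. -/
abbrev J1tors (m : ℕ) : Submodule ℤ (J1 M) := Submodule.torsionBy ℤ (J1 M) (m : ℤ)

end Bar

end Fermat.Agent.S48.F1
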