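import Fermat.Agent.S48.F1.RaiseF1
import Fermat.Agent.S48.Kum.Norm1
import Fermat.Agent.S48.H548.NormCoset1

/-!
# S48 / Tower A1, node A1-FF (helper168) — the degree of `α` is EXACTLY `p + 1`

`degAlpha1 : Kum.DegAlpha1 M p` (N3 of `Kum/Norm1.lean`, VERBATIM) for every prime `p ∤ M`:

* `≤ p + 1` : `F1.finrankAlong_alpha1_le_of_coprime` (tower law for the two generic packages and
  `[SL₂(ℤ) : Γ₀(p)] = p + 1`);
* `≥ p + 1` : the `p + 1` elements `rep1γ x ∈ Γ₁(M)` (helper548) are pairwise inequivalent modulo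
  `Γ₀(p)`, so `[±Γ₁(M) : ±Γ₁(M) ∩ Γ₀(p)] ≥ p + 1`.
-/

set_option autoImplicit false
set_option linter.style.haveILetI false
set_option linter.unusedSectionVars false

noncomputable section

open ModularCurve HahnSeries UpperHalfPlane AlgebraicCurve IntermediateField CongruenceSubgroup
open scoped MatrixGroups

namespace Fermat.Agent.S48.F1

open Fermat.Agent.S24 Fermat.Agent.S24.H997 Fermat.Agent.S48.H332

/-- `p + 1 ≤ [Γ : Γ ∩ Γ₀(p)]` as soon as `Γ` contains `p + 1` elements which are pairwise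
inequivalent modulo `Γ₀(p)`. -/
theorem le_relIndex_of_reps {Γ Γ' : Subgroup SL(2, ℤ)} [Γ'.FiniteIndex] {ι : Type*} [Finite ι]
    (gam : ι → SL(2, ℤ)) (hmem : ∀ x, gam x ∈ Γ)
    (hinj : ∀ x y, gam x * (gam y)⁻¹ ∈ Γ' → x = y) :
    Nat.card ι ≤ Γ'.relIndex Γ := by
  haveI : (Γ'.subgroupOf Γ).FiniteIndex := inferInstance
  haveI : Finite (Γ ⧸ Γ'.subgroupOf Γ) := Subgroup.finite_quotient_of_finiteIndex
  refine Nat.card_le_card_of_injective
    (fun x => ((⟨(gam x)⁻¹, Γ.inv_mem (hmem x)⟩ : Γ) : Γ ⧸ Γ'.subgroupOf Γ)) ?_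
  intro x y hxy
  rw [QuotientGroup.eq] at hxy
  apply hinj x y
  have h : ((⟨(gam x)⁻¹, Γ.inv_mem (hmem x)⟩ : Γ)⁻¹ * ⟨(gam y)⁻¹, Γ.inv_mem (hmem y)⟩ : Γ)
      ∈ Γ'.subgroupOf Γ := hxy
  rw [Subgroup.mem_subgroupOf] at h
  simpa using h

section

variable (M : ℕ) [NeZero M] (p : ℕ) [Fact p.Prime]

theorem card_onePoint_zmod : Nat.card (OnePoint (ZMod p)) = p + 1 := by
  haveI : NeZero p := ⟨(Fact.out : p.Prime).ne_zero⟩
  show Nat.card (Option (ZMod p)) = p + 1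
  rw [Nat.card_eq_fintype_card, Fintype.card_option, ZMod.card]

/-- `[±Γ₁(M) : ±Γ₁(M) ∩ Γ₀(p)] ≥ p + 1`. -/
theorem le_relIndex_pmGamma1 (hpM : ¬ p ∣ M) :
    p + 1 ≤ (Gamma0 p).relIndex (pmGamma1 M) := by
  haveI : NeZero p := ⟨(Fact.out : p.Prime).ne_zero⟩
  haveI := finite_XG_Gamma0 p
  haveI : (Gamma0 p).FiniteIndex := Subgroup.finiteIndex_of_finite_quotient
  have h := le_relIndex_of_reps (Γ := pmGamma1 M) (Γ' := Gamma0 p)
    (fun x : OnePoint (ZMod p) => Fermat.Agent.S48.H548.rep1γ hpM x)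
    (fun x => Gamma1_le_pmGamma1 M (Fermat.Agent.S48.H548.rep1γ_mem hpM x))
    (fun x y hxy => Fermat.Agent.S48.H548.rep1γ_injective hpM hxy)
  rwa [card_onePoint_zmod] at h

/-- **N3 = `Kum.DegAlpha1`, VERBATIM**: `[ℚ̄·F₁(M;p) : ℚ̄·F₁(M)] = p + 1` along `α`. -/
theorem degAlpha1 (hpM : ¬ p ∣ M) :
    haveI : NeZero p := ⟨(Fact.out : p.Prime).ne_zero⟩
    Fermat.Agent.S48.Kum.DegAlpha1 M p := by
  haveI : NeZero p := ⟨(Fact.out : p.Prime).ne_zero⟩
  have hp : p.Prime := Fact.out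
  haveI : NeZero (M * p) := ⟨Nat.mul_ne_zero (NeZero.ne M) hp.ne_zero⟩
  have hc : Nat.Coprime p M := (Nat.Prime.coprime_iff_not_dvd hp).mpr hpM
  have hle := finrankAlong_alpha1_le_of_coprime M p hc hp
  show (letI := algebraAlong (alpha1 (AlgebraicClosure ℚ) M p);
    Module.finrank (F1Bar M) (F1pL (AlgebraicClosure ℚ) M p)) = p + 1
  refine le_antisymm hle ?_
  -- the lower bound
  letI := algebraAlong (alpha1 Kbar M p)
  haveI := isScalarTower_along (alpha1 Kbar M p)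
  have h1 := Fermat.Agent.S29.H812.finrank_adjoin_algebraMap (K := Kbar) (F := F1L Kbar M)
    (F' := F1pL Kbar M p) (jL M)
  have h2 : algebraMap (F1L Kbar M) (F1pL Kbar M p) (jL M) = jpL M p := alpha1_jL M p
  rw [h2, finrank_F1pL M p hc, finrank_F1L M] at h1
  -- `card (XG (Γ ⊓ Γ₀)) = relIndex * card (XG Γ)`
  have h3 : (pmGamma1 M ⊓ Gamma0 p).relIndex (pmGamma1 M) * (pmGamma1 M).index
      = (pmGamma1 M ⊓ Gamma0 p).index := Subgroup.relIndex_mul_index inf_le_left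
  rw [Subgroup.inf_relIndex_left] at h3
  have h4 : Nat.card (XG (pmGamma1 M ⊓ Gamma0 p)) = (pmGamma1 M ⊓ Gamma0 p).index := rfl
  have h5 : Nat.card (XG (pmGamma1 M)) = (pmGamma1 M).index := rfl
  rw [h4, h5, ← h3, mul_comm] at h1
  have hpos : 0 < (pmGamma1 M).index := by
    rw [← h5]; exact Nat.card_pos
  have h6 := Nat.eq_of_mul_eq_mul_left hpos h1
  show p + 1 ≤ Module.finrank (F1L Kbar M) (F1pL Kbar M p)
  rw [← h6]
  exact le_relIndex_pmGamma1 M p hpM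

end

end Fermat.Agent.S48.F1
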