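import Fermat.Agent.S48.F1.Raise
import Fermat.Agent.S48.H332.F1Inst
import Fermat.Agent.S29.H812.Along
import Fermat.Agent.Lib.RR.H864.FF1Bridge
import Fermat.Agent.S24.Count

/-!
# S48 / Tower A1, node A1-FF (helper168) — the fields `F1 M`, `F1p M p` as generic fields

On top of helper332's instance `H332.f1Data M : GenData M (pmGamma1 M) (f1Field M)`:

* `f1pField M p : GenField` — `ℚ̄ · F1p M p` with generators `S₀ ∪ S₀(q^p)`;
* `f1pData M p hpM : GenData (M p) (±Γ₁(M) ⊓ Γ₀(p)) (f1pField M p)` (`p` prime to `M`), hence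
  `f1pPkg` (the whole local dictionary of `F1p M p`), `finrank_F1pL`;
* `finiteDimensional_F1L`, `finiteDimensional_F1pL`, `exists_coord_F1L`, `exists_coord_F1pL`;
* **`hi1`** : `CorrInputs (beta1 ℚ̄ M p) (alpha1 ℚ̄ M p)` for `p ∤ M` prime (= `H136.HI1Statement`);
* **`finrankAlong_alpha1_le`** : `[ℚ̄·F1p : α(ℚ̄·F1)] ≤ p + 1` (`hdeg` of A1-NORM).
-/

set_option autoImplicit false
set_option linter.style.haveILetI false
set_option linter.unusedSectionVars false

noncomputable section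

open ModularCurve HahnSeries UpperHalfPlane AlgebraicCurve IntermediateField
open scoped MatrixGroups Manifold Real

namespace Fermat.Agent.S48.F1

open Fermat.Agent.S24 Fermat.Agent.S24.H997 Fermat.Agent.S48.H332

/-! ### The generic fields -/

theorem F1_eq_adjoin (M : ℕ) : F1 M = IntermediateField.adjoin ℚ (f1Gens M) := rfl

theorem F1p_eq_adjoin (M p : ℕ) [NeZero p] :
    F1p M p = IntermediateField.adjoin ℚ (f1Gens M ∪ ⇑(qExpand ℚ p) '' f1Gens M) := by
  rw [F1p, F1_eq_adjoin, IntermediateField.adjoin_map, ← IntermediateField.adjoin_union]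
  rfl

theorem F1pL_eq (M p : ℕ) [NeZero p] :
    F1pL Kbar M p = IntermediateField.adjoin Kbar (raiseS (f1Field M) p) := by
  show laurentBaseChange Kbar (F1p M p) = _
  rw [F1p_eq_adjoin, laurentBaseChange_adjoin]
  congr 1
  rw [raiseS, f1Field_S, Set.image_union, Set.image_image, Set.image_image]
  congr 1
  exact Set.image_congr fun x _ => (qExpand_coeffEmb (L := Kbar) p x).symm

/-- `ℚ̄ · F1p M p` as a generic field. -/
def f1pField (M p : ℕ) [NeZero p] : GenField :=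
  raiseField (f1Field M) p (F1pL Kbar M p) (F1pL_eq M p)

theorem f1pField_F (M p : ℕ) [NeZero p] : (f1pField M p).F = F1pL Kbar M p := rfl


/-! ### Conjugation by `diag(p, 1)` -/

/-- For `g ∈ Γ₀(p)` the matrix `g' = diag(p,1) g diag(p,1)⁻¹` is integral, has the same diagonal
as `g`, lower left entry `g₁₀ / p`, and `p · (g τ) = g' (p τ)`. -/
theorem exists_conj_scale (p : ℕ) [NeZero p] (g : SL(2, ℤ))
    (hg : g ∈ CongruenceSubgroup.Gamma0 p) :
    ∃ g' : SL(2, ℤ), g' 0 0 = g 0 0 ∧ g' 1 1 = g 1 1 ∧ (p : ℤ) * g' 1 0 = g 1 0 ∧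
      g' 0 1 = p * g 0 1 ∧ ∀ τ : ℍ, infAff p 0 1 (g • τ) = g' • infAff p 0 1 τ := by
  have hp : 0 < p := Nat.pos_of_ne_zero (NeZero.ne p)
  have hpg : (p : ℤ) ∣ g 1 0 := by
    rw [CongruenceSubgroup.Gamma0_mem] at hg
    exact (ZMod.intCast_zmod_eq_zero_iff_dvd _ _).mp hg
  obtain ⟨c, hc⟩ := hpg
  have hdet := inf_sl_det g
  let g' : SL(2, ℤ) := ⟨!![g 0 0, p * g 0 1; c, g 1 1], by
    rw [Matrix.det_fin_two_of]
    rw [hc] at hdet
    linear_combination hdet⟩
  refine ⟨g', by simp [g'], by simp [g'], by simp [g', hc], by simp [g'], fun τ => ?_⟩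
  exact inf_aff_smul_eq (d := p) (a := p) (d' := 1) (b := 0) hp hp one_pos g g'
    (by simp [g']; ring) (by simp [g']) (by simp [g', hc]; ring) (by simp [g']) τ

/-- `±Γ₁(M) ∩ Γ₀(p)` is carried into `±Γ₁(M)` by conjugation with `diag(p, 1)`, `p` prime to `M`. -/
theorem conj_pmGamma1 {M p : ℕ} [NeZero p] (hpM : Nat.Coprime p M) (g : SL(2, ℤ))
    (hg : g ∈ pmGamma1 M) (hgp : g ∈ CongruenceSubgroup.Gamma0 p) :
    ∃ g' ∈ pmGamma1 M, ∀ τ : ℍ, infAff p 0 1 (g • τ) = g' • infAff p 0 1 τ := by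
  obtain ⟨g', h00, -, h10, -, h⟩ := exists_conj_scale p g hgp
  refine ⟨g', ?_, h⟩
  rw [mem_pmGamma1] at hg ⊢
  refine ⟨?_, by rw [h00]; exact hg.2⟩
  rw [CongruenceSubgroup.Gamma0_mem]
  have hM : (M : ℤ) ∣ g 1 0 :=
    (ZMod.intCast_zmod_eq_zero_iff_dvd _ _).mp (CongruenceSubgroup.Gamma0_mem.mp hg.1)
  rw [← h10] at hM
  have hcop : IsCoprime (M : ℤ) (p : ℤ) := by
    rw [Int.isCoprime_iff_gcd_eq_one, Int.gcd_natCast_natCast]
    exact hpM.symm
  exact (ZMod.intCast_zmod_eq_zero_iff_dvd _ _).mpr (hcop.dvd_of_dvd_mul_left hM)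

/-- **The analytic datum of `F1p M p`**, `Γ = ±Γ₁(M) ∩ Γ₀(p)`, `p` prime to `M`. -/
def f1pData (M : ℕ) [NeZero M] (p : ℕ) [NeZero p] [NeZero (M * p)] (hpM : Nat.Coprime p M) :
    GenData (M * p) (pmGamma1 M ⊓ CongruenceSubgroup.Gamma0 p) (f1pField M p) :=
  raiseData (f1Data M) p (F1pL Kbar M p) (F1pL_eq M p) (conj_pmGamma1 hpM)

/-! ### Finite index -/

theorem finite_XG_Gamma0 (p : ℕ) [NeZero p] : Finite (XG (CongruenceSubgroup.Gamma0 p)) := by
  have h : Nat.card (XX p) = dedekindPsi p := card_XX p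
  have hpos : 0 < dedekindPsi p := by
    rw [dedekindPsi]
    apply Finset.sum_pos'
    · intro d _; exact Nat.zero_le _
    · refine ⟨1, ?_, ?_⟩
      · rw [Finset.mem_filter]
        exact ⟨Nat.one_mem_divisors.mpr (NeZero.ne p), squarefree_one⟩
      · simpa using Nat.pos_of_ne_zero (NeZero.ne p)
  exact Nat.finite_of_card_ne_zero (by rw [show XG (CongruenceSubgroup.Gamma0 p) = XX p from rfl, h]; exact hpos.ne')

theorem finite_XG_inf (Γ : Subgroup SL(2, ℤ)) [Finite (XG Γ)] (p : ℕ) [NeZero p] :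
    Finite (XG (Γ ⊓ CongruenceSubgroup.Gamma0 p)) := by
  haveI := finite_XG_Gamma0 p
  haveI h1 : Γ.FiniteIndex := Subgroup.finiteIndex_of_finite_quotient
  haveI h2 : (CongruenceSubgroup.Gamma0 p).FiniteIndex := Subgroup.finiteIndex_of_finite_quotient
  haveI : (Γ ⊓ CongruenceSubgroup.Gamma0 p).FiniteIndex := inferInstance
  exact Subgroup.finite_quotient_of_finiteIndex

theorem card_XG_inf_le (Γ : Subgroup SL(2, ℤ)) (p : ℕ) [NeZero p] :
    Nat.card (XG (Γ ⊓ CongruenceSubgroup.Gamma0 p)) ≤ Nat.card (XG Γ) * dedekindPsi p := by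
  have h : Nat.card (XX p) = dedekindPsi p := card_XX p
  rw [← h]
  exact Subgroup.index_inf_le

theorem dedekindPsi_prime_raise {p : ℕ} (hp : p.Prime) : dedekindPsi p = p + 1 := by
  rw [dedekindPsi, hp.divisors, Finset.filter_true_of_mem, Finset.sum_pair hp.one_lt.ne]
  · rw [Nat.div_one, Nat.div_self hp.pos]
  · intro d hd
    rw [Finset.mem_insert, Finset.mem_singleton] at hd
    rcases hd with rfl | rfl
    · exact squarefree_one
    · exact hp.squarefree

/-! ### Consequences for `F1 M` and `F1p M p` -/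

/-- `j` as an element of `ℚ̄ · F1 M`. -/
def jL (M : ℕ) : F1L Kbar M := (f1Field M).jF

/-- `j` as an element of `ℚ̄ · F1p M p`. -/
def jpL (M p : ℕ) [NeZero p] : F1pL Kbar M p := (f1pField M p).jF

theorem coe_jL (M : ℕ) : ((jL M : F1L Kbar M) : LaurentSeries Kbar) = coeffEmb Kbar jq := rfl

theorem coe_jpL (M p : ℕ) [NeZero p] :
    ((jpL M p : F1pL Kbar M p) : LaurentSeries Kbar) = coeffEmb Kbar jq := rfl

theorem alpha1_jL (M p : ℕ) [NeZero p] : alpha1 Kbar M p (jL M) = jpL M p :=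
  Subtype.ext (by rw [coe_alpha1, coe_jL, coe_jpL])

/-- A non-constant element of a subfield of `ℚ̄((q))` with a pole is transcendental. -/
theorem transcendental_of_coe_eq_jq {F : IntermediateField Kbar (LaurentSeries Kbar)} (x : F)
    (hx : (x : LaurentSeries Kbar) = coeffEmb Kbar jq) : Transcendental Kbar x := by
  apply Fermat.Agent.S24.FF.transcendental_of_not_mem_range
  rintro ⟨c, hc⟩
  have h1 : ((algebraMap Kbar F c : F) : LaurentSeries Kbar).coeff (-1)
      = ((x : F) : LaurentSeries Kbar).coeff (-1) := by rw [hc]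
  have h2 : ((algebraMap Kbar F c : F) : LaurentSeries Kbar)
      = algebraMap Kbar (LaurentSeries Kbar) c := rfl
  rw [h2, algebraMap_laurentSeries_eq_single, hx, coeffEmb_coeff, coeff_jq_neg_one, map_one,
    HahnSeries.coeff_single_of_ne (by norm_num)] at h1
  exact zero_ne_one h1

theorem transcendental_jL (M : ℕ) : Transcendental Kbar (jL M) :=
  transcendental_of_coe_eq_jq _ (coe_jL M)

theorem transcendental_jpL (M p : ℕ) [NeZero p] : Transcendental Kbar (jpL M p) :=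
  transcendental_of_coe_eq_jq _ (coe_jpL M p)

section Consequences

variable (M : ℕ) [NeZero M] (p : ℕ) [NeZero p] [NeZero (M * p)] (hpM : Nat.Coprime p M)

/-- **The generic modular package of `ℚ̄·F1p(M, p)`** (local dictionary at every `j = a`, `∞`). -/
def f1pPkg : GenPackage (M * p) (pmGamma1 M ⊓ CongruenceSubgroup.Gamma0 p) (f1pField M p) :=
  haveI := finite_XG_inf (pmGamma1 M) p
  (f1pData M p hpM).pkg

theorem finiteDimensional_F1L : FiniteDimensional Kbar⟮jL M⟯ (F1L Kbar M) :=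
  (f1Data M).finiteDimensional

theorem finrank_F1L : Module.finrank Kbar⟮jL M⟯ (F1L Kbar M) = Nat.card (XG (pmGamma1 M)) :=
  (f1Data M).finrank_eq

include hpM in
theorem finiteDimensional_F1pL : FiniteDimensional Kbar⟮jpL M p⟯ (F1pL Kbar M p) :=
  haveI := finite_XG_inf (pmGamma1 M) p
  (f1pData M p hpM).finiteDimensional

include hpM in
theorem finrank_F1pL : Module.finrank Kbar⟮jpL M p⟯ (F1pL Kbar M p)
    = Nat.card (XG (pmGamma1 M ⊓ CongruenceSubgroup.Gamma0 p)) :=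
  haveI := finite_XG_inf (pmGamma1 M) p
  (f1pData M p hpM).finrank_eq

theorem exists_coord_F1L :
    ∃ x : F1L Kbar M, Transcendental Kbar x ∧ FiniteDimensional Kbar⟮x⟯ (F1L Kbar M) :=
  ⟨jL M, transcendental_jL M, finiteDimensional_F1L M⟩

include hpM in
theorem exists_coord_F1pL :
    ∃ x : F1pL Kbar M p, Transcendental Kbar x ∧ FiniteDimensional Kbar⟮x⟯ (F1pL Kbar M p) :=
  ⟨jpL M p, transcendental_jpL M p, finiteDimensional_F1pL M p hpM⟩

include hpM in
/-- `CorrInputs` for the Hecke correspondence `α_* β^*` of level `(M; p)`, `p` prime to `M`. -/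
theorem corrInputs_of_coprime : CorrInputs (beta1 Kbar M p) (alpha1 Kbar M p) := by
  have hF := exists_coord_F1L M
  have hF' := exists_coord_F1pL M p hpM
  haveI := finiteDimensional_F1pL M p hpM
  haveI hP : HasPrincipalDivisors Kbar (F1pL Kbar M p) :=
    Fermat.Agent.Lib.RR.H864.hasPrincipalDivisors (jpL M p) (transcendental_jpL M p)
  have hfinα := Fermat.Agent.S29.H812.finiteAlong hF hF' (alpha1 Kbar M p)
  have hfinβ := Fermat.Agent.S29.H812.finiteAlong hF hF' (beta1 Kbar M p)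
  exact ⟨Fermat.Agent.S29.H812.isIntegral_of_finiteAlong hfinβ,
    Fermat.Agent.S29.H812.isIntegral_of_finiteAlong hfinα, hP, hfinα,
    Fermat.Agent.S29.H812.fundamentalIdentityAlong hF _ hfinβ _,
    Fermat.Agent.S29.H812.normFormulaAlong hF _ hfinα⟩

include hpM in
/-- the same for the transposed correspondence `β_* α^*` -/
theorem corrInputs_of_coprime' : CorrInputs (alpha1 Kbar M p) (beta1 Kbar M p) := by
  have hF := exists_coord_F1L M
  have hF' := exists_coord_F1pL M p hpM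
  haveI := finiteDimensional_F1pL M p hpM
  haveI hP : HasPrincipalDivisors Kbar (F1pL Kbar M p) :=
    Fermat.Agent.Lib.RR.H864.hasPrincipalDivisors (jpL M p) (transcendental_jpL M p)
  have hfinα := Fermat.Agent.S29.H812.finiteAlong hF hF' (alpha1 Kbar M p)
  have hfinβ := Fermat.Agent.S29.H812.finiteAlong hF hF' (beta1 Kbar M p)
  exact ⟨Fermat.Agent.S29.H812.isIntegral_of_finiteAlong hfinα,
    Fermat.Agent.S29.H812.isIntegral_of_finiteAlong hfinβ, hP, hfinβ,
    Fermat.Agent.S29.H812.fundamentalIdentityAlong hF _ hfinα _,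
    Fermat.Agent.S29.H812.normFormulaAlong hF _ hfinβ⟩

include hpM in
/-- **DEG**: `[ℚ̄·F1p M p : α(ℚ̄·F1 M)] ≤ p + 1`. -/
theorem finrankAlong_alpha1_le_of_coprime (hp : p.Prime) :
    finrankAlong Kbar (alpha1 Kbar M p) ≤ p + 1 := by
  letI := algebraAlong (alpha1 Kbar M p)
  haveI := isScalarTower_along (alpha1 Kbar M p)
  have h1 := Fermat.Agent.S29.H812.finrank_adjoin_algebraMap (K := Kbar) (F := F1L Kbar M)
    (F' := F1pL Kbar M p) (jL M)
  have h2 : algebraMap (F1L Kbar M) (F1pL Kbar M p) (jL M) = jpL M p := alpha1_jL M p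
  rw [h2, finrank_F1pL M p hpM, finrank_F1L M] at h1
  have h3 := card_XG_inf_le (pmGamma1 M) p
  rw [dedekindPsi_prime_raise hp, h1] at h3
  have hpos : 0 < Nat.card (XG (pmGamma1 M)) := Nat.card_pos
  exact Nat.le_of_mul_le_mul_left h3 hpos

end Consequences

/-! ### The node statements, in the shape of the consumers -/

/-- **HI1** (`= H136.HI1Statement`, verbatim). -/
theorem hi1 : ∀ (M p : ℕ) [NeZero p], M ≠ 0 → p.Prime → ¬ p ∣ M →
    CorrInputs (beta1 (AlgebraicClosure ℚ) M p) (alpha1 (AlgebraicClosure ℚ) M p) := by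
  intro M p _ hM hp hpM
  haveI : NeZero M := ⟨hM⟩
  haveI : NeZero (M * p) := ⟨Nat.mul_ne_zero hM hp.ne_zero⟩
  exact corrInputs_of_coprime M p ((Nat.Prime.coprime_iff_not_dvd hp).mpr hpM)

/-- **HI1ᵀ**: the inputs of the transposed correspondence. -/
theorem hi1T : ∀ (M p : ℕ) [NeZero p], M ≠ 0 → p.Prime → ¬ p ∣ M →
    CorrInputs (alpha1 (AlgebraicClosure ℚ) M p) (beta1 (AlgebraicClosure ℚ) M p) := by
  intro M p _ hM hp hpM
  haveI : NeZero M := ⟨hM⟩
  haveI : NeZero (M * p) := ⟨Nat.mul_ne_zero hM hp.ne_zero⟩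
  exact corrInputs_of_coprime' M p ((Nat.Prime.coprime_iff_not_dvd hp).mpr hpM)

/-- **DEG** (`hdeg` of `H428.normIdG_of_embeddings_jq`). -/
theorem finrankAlong_alpha1_le : ∀ (M p : ℕ) [NeZero p], M ≠ 0 → p.Prime → ¬ p ∣ M →
    finrankAlong (AlgebraicClosure ℚ) (alpha1 (AlgebraicClosure ℚ) M p) ≤ p + 1 := by
  intro M p _ hM hp hpM
  haveI : NeZero M := ⟨hM⟩
  haveI : NeZero (M * p) := ⟨Nat.mul_ne_zero hM hp.ne_zero⟩
  exact finrankAlong_alpha1_le_of_coprime M p ((Nat.Prime.coprime_iff_not_dvd hp).mpr hpM) hp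

/-- **FIN**: `FiniteAlong` for `α` and `β`. -/
theorem finiteAlong_alpha1_beta1 : ∀ (M p : ℕ) [NeZero p], M ≠ 0 → p.Prime → ¬ p ∣ M →
    FiniteAlong (AlgebraicClosure ℚ) (alpha1 (AlgebraicClosure ℚ) M p) ∧
      FiniteAlong (AlgebraicClosure ℚ) (beta1 (AlgebraicClosure ℚ) M p) := by
  intro M p _ hM hp hpM
  haveI : NeZero M := ⟨hM⟩
  haveI : NeZero (M * p) := ⟨Nat.mul_ne_zero hM hp.ne_zero⟩
  have hc := (Nat.Prime.coprime_iff_not_dvd hp).mpr hpM
  exact ⟨Fermat.Agent.S29.H812.finiteAlong (exists_coord_F1L M) (exists_coord_F1pL M p hc) _,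
    Fermat.Agent.S29.H812.finiteAlong (exists_coord_F1L M) (exists_coord_F1pL M p hc) _⟩

end Fermat.Agent.S48.F1
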