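import Fermat.Agent.S48.F1.Defs
import Fermat.Agent.S29.H42.GH
import Fermat.Agent.S29.H42.Smooth

/-!
# S48 / RES (Tower A1) — A1-FF: formal properties of `J₁(M)` and its operators (helper168)

Everything here is PROVED (no hypotheses):

* `lbc_ringHom_ext` : a ring hom out of `L · F₀` is determined by its values on `L` and on
  generators of `F₀`;
* `isDiamond_unique`, `isDiamond_one`, `IsDiamond.mul`, `IsDiamond.symm`;
* `galois_smul_hecke1`, `galois_smul_hecke1T`, `galois_smul_diamond1`, `galois_smul_diamond1Inv` :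
  the Hecke and diamond operators on `J₁(M)` commute with the Galois action;
* `j1_exists_finite_level_fix_torsion` : SMOOTH for `J₁(M)`;
* the torsion module `J1T M m` with its Galois action and operators `heckeT`, `diamondT`,
  `diamondInvT`.
-/

set_option autoImplicit false
set_option linter.style.haveILetI false
set_option linter.unusedSectionVars false

noncomputable section

open PowerSeries HahnSeries IntermediateField ModularCurve AlgebraicCurve

namespace Fermat.Agent.S48.F1

/-! ### Extensionality for ring homs out of `L · F₀` -/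

section Ext

variable {L : Type*} [Field L] [Algebra ℚ L]

theorem coeffEmb_algebraMap (q : ℚ) :
    coeffEmb L (algebraMap ℚ (LaurentSeries ℚ) q) =
      algebraMap L (LaurentSeries L) (algebraMap ℚ L q) := by
  rw [algebraMap_apply_eq_single, algebraMap_laurent_eq_single]
  ext k
  rw [coeffEmb_coeff]
  by_cases hk : k = 0
  · subst hk
    simp
  · simp [HahnSeries.coeff_single_of_ne hk]

theorem lbc_ringHom_ext {S : Set (LaurentSeries ℚ)} {R : Type*} [DivisionRing R]
    (f g : laurentBaseChange L (IntermediateField.adjoin ℚ S) →+* R)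
    (hL : ∀ a : L, f (algebraMap L _ a) = g (algebraMap L _ a))
    (hS : ∀ (z : LaurentSeries ℚ) (hz : z ∈ S),
      f ⟨coeffEmb L z, coeffEmb_mem_laurentBaseChange L (IntermediateField.subset_adjoin ℚ S hz)⟩
        = g ⟨coeffEmb L z,
            coeffEmb_mem_laurentBaseChange L (IntermediateField.subset_adjoin ℚ S hz)⟩) :
    f = g := by
  -- first step: agreement on `coeffEmb '' F₀`
  have key : ∀ (z : LaurentSeries ℚ) (hz : z ∈ IntermediateField.adjoin ℚ S),
      f ⟨coeffEmb L z, coeffEmb_mem_laurentBaseChange L hz⟩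
        = g ⟨coeffEmb L z, coeffEmb_mem_laurentBaseChange L hz⟩ := by
    intro z hz
    induction hz using IntermediateField.adjoin_induction with
    | mem x hx => exact hS x hx
    | algebraMap q =>
        have h1 : (⟨coeffEmb L (algebraMap ℚ (LaurentSeries ℚ) q),
            coeffEmb_mem_laurentBaseChange L
              ((IntermediateField.adjoin ℚ S).algebraMap_mem q)⟩ :
              laurentBaseChange L (IntermediateField.adjoin ℚ S))
            = algebraMap L _ (algebraMap ℚ L q) :=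
          Subtype.ext (coeffEmb_algebraMap q)
        rw [h1]
        exact hL _
    | add x y hx hy ihx ihy =>
        have h1 : (⟨coeffEmb L (x + y), coeffEmb_mem_laurentBaseChange L (add_mem hx hy)⟩ :
            laurentBaseChange L (IntermediateField.adjoin ℚ S))
            = ⟨coeffEmb L x, coeffEmb_mem_laurentBaseChange L hx⟩
              + ⟨coeffEmb L y, coeffEmb_mem_laurentBaseChange L hy⟩ :=
          Subtype.ext (map_add (coeffEmb L) x y)
        rw [h1, map_add, map_add, ihx, ihy]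
    | inv x hx ihx =>
        have h1 : (⟨coeffEmb L x⁻¹, coeffEmb_mem_laurentBaseChange L (inv_mem hx)⟩ :
            laurentBaseChange L (IntermediateField.adjoin ℚ S))
            = (⟨coeffEmb L x, coeffEmb_mem_laurentBaseChange L hx⟩ :
                laurentBaseChange L (IntermediateField.adjoin ℚ S))⁻¹ :=
          Subtype.ext (map_inv₀ (coeffEmb L) x)
        rw [h1, map_inv₀, map_inv₀, ihx]
    | mul x y hx hy ihx ihy =>
        have h1 : (⟨coeffEmb L (x * y), coeffEmb_mem_laurentBaseChange L (mul_mem hx hy)⟩ :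
            laurentBaseChange L (IntermediateField.adjoin ℚ S))
            = ⟨coeffEmb L x, coeffEmb_mem_laurentBaseChange L hx⟩
              * ⟨coeffEmb L y, coeffEmb_mem_laurentBaseChange L hy⟩ :=
          Subtype.ext (map_mul (coeffEmb L) x y)
        rw [h1, map_mul, map_mul, ihx, ihy]
  -- second step: agreement on the compositum
  have key2 : ∀ (y : LaurentSeries L)
      (hy : y ∈ laurentBaseChange L (IntermediateField.adjoin ℚ S)), f ⟨y, hy⟩ = g ⟨y, hy⟩ := by
    intro y hy
    unfold laurentBaseChange at hy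
    induction hy using IntermediateField.adjoin_induction with
    | mem x hx =>
        obtain ⟨z, hz, rfl⟩ := hx
        exact key z hz
    | algebraMap a => exact hL a
    | add x y hx hy ihx ihy =>
        have h1 : (⟨x + y, add_mem hx hy⟩ :
            laurentBaseChange L (IntermediateField.adjoin ℚ S)) = ⟨x, hx⟩ + ⟨y, hy⟩ := rfl
        rw [h1, map_add, map_add, ihx, ihy]
    | inv x hx ihx =>
        have h1 : (⟨x⁻¹, inv_mem hx⟩ :
            laurentBaseChange L (IntermediateField.adjoin ℚ S)) = (⟨x, hx⟩)⁻¹ := rfl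
        rw [h1, map_inv₀, map_inv₀, ihx]
    | mul x y hx hy ihx ihy =>
        have h1 : (⟨x * y, mul_mem hx hy⟩ :
            laurentBaseChange L (IntermediateField.adjoin ℚ S)) = ⟨x, hx⟩ * ⟨y, hy⟩ := rfl
        rw [h1, map_mul, map_mul, ihx, ihy]
  ext ⟨y, hy⟩
  exact key2 y hy

end Ext

/-! ### The diamond automorphisms -/

section Diamond

variable {L : Type*} [Field L] [Algebra ℚ L] {M : ℕ}

/-- `P_a` as an element of `L · F1 M`. -/
def divGenL (L : Type*) [Field L] [Algebra ℚ L] (M : ℕ) (a : ZMod M) (ha : a ≠ 0) : F1L L M :=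
  ⟨coeffEmb L (divGen M a), coeffEmb_mem_laurentBaseChange L (divGen_mem_F1 M ha)⟩

@[simp]
theorem coe_divGenL (a : ZMod M) (ha : a ≠ 0) :
    ((divGenL L M a ha : F1L L M) : LaurentSeries L) = coeffEmb L (divGen M a) := rfl

theorem unit_mul_ne_zero (d : (ZMod M)ˣ) {a : ZMod M} (ha : a ≠ 0) : (d : ZMod M) * a ≠ 0 :=
  fun h => ha (by
    have := congrArg (fun x => ((d⁻¹ : (ZMod M)ˣ) : ZMod M) * x) h
    simpa using this)

theorem IsDiamond.apply_divGenL {d : (ZMod M)ˣ} {σ : F1L L M ≃ₐ[L] F1L L M}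
    (h : IsDiamond L M d σ) (a : ZMod M) (ha : a ≠ 0) :
    σ (divGenL L M a ha) = divGenL L M ((d : ZMod M) * a) (unit_mul_ne_zero d ha) :=
  h.2 a _ _ ha rfl rfl

theorem isDiamond_iff {d : (ZMod M)ˣ} {σ : F1L L M ≃ₐ[L] F1L L M} :
    IsDiamond L M d σ ↔
      (∀ x : F1L L M, (x : LaurentSeries L) ∈ laurentBaseChange L (modularFunctionFieldFull M) →
        σ x = x) ∧
      ∀ (a : ZMod M) (ha : a ≠ 0),
        σ (divGenL L M a ha) = divGenL L M ((d : ZMod M) * a) (unit_mul_ne_zero d ha) := by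
  constructor
  · exact fun h => ⟨h.1, fun a ha => h.apply_divGenL a ha⟩
  · rintro ⟨h1, h2⟩
    refine ⟨h1, fun a x y ha hx hy => ?_⟩
    have hx' : x = divGenL L M a ha := Subtype.ext hx
    have hy' : y = divGenL L M ((d : ZMod M) * a) (unit_mul_ne_zero d ha) := Subtype.ext hy
    rw [hx', hy']
    exact h2 a ha

/-- The diamond automorphism is unique. -/
theorem isDiamond_unique {d : (ZMod M)ˣ} {σ τ : F1L L M ≃ₐ[L] F1L L M}
    (hσ : IsDiamond L M d σ) (hτ : IsDiamond L M d τ) : σ = τ := by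
  have h : (σ : F1L L M →+* F1L L M) = (τ : F1L L M →+* F1L L M) := by
    refine lbc_ringHom_ext (S := divisorExpansions M ∪ divGens M) _ _ ?_ ?_
    · intro a
      show σ (algebraMap L _ a) = τ (algebraMap L _ a)
      rw [σ.commutes, τ.commutes]
    · rintro z (hz | ⟨a, ha, rfl⟩)
      · have hmem : coeffEmb L z ∈ laurentBaseChange L (modularFunctionFieldFull M) :=
          coeffEmb_mem_laurentBaseChange L (IntermediateField.subset_adjoin ℚ _ hz)
        show σ _ = τ _
        rw [hσ.1 _ hmem, hτ.1 _ hmem]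
      · show σ (divGenL L M a ha) = τ (divGenL L M a ha)
        rw [hσ.apply_divGenL, hτ.apply_divGenL]
  apply AlgEquiv.ext
  intro x
  exact congrArg (fun f : F1L L M →+* F1L L M => f x) h

theorem isDiamond_one : IsDiamond L M 1 (AlgEquiv.refl : F1L L M ≃ₐ[L] F1L L M) := by
  rw [isDiamond_iff]
  refine ⟨fun _ _ => rfl, fun a ha => ?_⟩
  apply Subtype.ext
  simp

theorem IsDiamond.mul {d d' : (ZMod M)ˣ} {σ τ : F1L L M ≃ₐ[L] F1L L M}
    (hσ : IsDiamond L M d σ) (hτ : IsDiamond L M d' τ) : IsDiamond L M (d * d') (σ * τ) := by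
  rw [isDiamond_iff]
  refine ⟨fun x hx => ?_, fun a ha => ?_⟩
  · show σ (τ x) = x
    rw [hτ.1 x hx, hσ.1 x hx]
  · show σ (τ (divGenL L M a ha)) = _
    rw [hτ.apply_divGenL, hσ.apply_divGenL]
    apply Subtype.ext
    simp [mul_assoc]

theorem IsDiamond.symm {d : (ZMod M)ˣ} {σ : F1L L M ≃ₐ[L] F1L L M}
    (hσ : IsDiamond L M d σ) : IsDiamond L M d⁻¹ σ.symm := by
  rw [isDiamond_iff]
  refine ⟨fun x hx => ?_, fun a ha => ?_⟩
  · rw [AlgEquiv.symm_apply_eq, hσ.1 x hx]
  · rw [AlgEquiv.symm_apply_eq, hσ.apply_divGenL]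
    apply Subtype.ext
    simp

theorem diamondAut_eq {d : (ZMod M)ˣ} {σ : F1L L M ≃ₐ[L] F1L L M} (hσ : IsDiamond L M d σ) :
    diamondAut L M d = σ :=
  isDiamond_unique (isDiamond_diamondAut L M d ⟨σ, hσ⟩) hσ

end Diamond

/-! ### Galois equivariance -/

section Galois

variable (M : ℕ)

local notation "Qbar" => AlgebraicClosure ℚ
local notation "GalQbar" => (AlgebraicClosure ℚ ≃ₐ[ℚ] AlgebraicClosure ℚ)

theorem intertwines_alpha1 (p : ℕ) [NeZero p] (σ : GalQbar) :
    SemilinearAut.IntertwinesAlong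
      ((alpha1 Qbar M p : F1L Qbar M →ₐ[Qbar] F1pL Qbar M p) : F1L Qbar M →+* F1pL Qbar M p)
      (arithmeticGalois (F1 M) σ) (arithmeticGalois (F1p M p) σ) := by
  intro x
  apply Subtype.ext
  rw [coe_arithmeticGalois_smul]
  show coeffMap _ ((alpha1 Qbar M p x : F1pL Qbar M p) : LaurentSeries Qbar)
    = ((alpha1 Qbar M p (arithmeticGalois (F1 M) σ • x) : F1pL Qbar M p) : LaurentSeries Qbar)
  rw [coe_alpha1, coe_alpha1, coe_arithmeticGalois_smul]

theorem intertwines_beta1 (p : ℕ) [NeZero p] (σ : GalQbar) :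
    SemilinearAut.IntertwinesAlong
      ((beta1 Qbar M p : F1L Qbar M →ₐ[Qbar] F1pL Qbar M p) : F1L Qbar M →+* F1pL Qbar M p)
      (arithmeticGalois (F1 M) σ) (arithmeticGalois (F1p M p) σ) := by
  intro x
  apply Subtype.ext
  rw [coe_arithmeticGalois_smul]
  show coeffMap _ ((beta1 Qbar M p x : F1pL Qbar M p) : LaurentSeries Qbar)
    = ((beta1 Qbar M p (arithmeticGalois (F1 M) σ • x) : F1pL Qbar M p) : LaurentSeries Qbar)
  rw [coe_beta1, coe_beta1, coe_arithmeticGalois_smul, coeffMap_qExpand]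

theorem galois_smul_corrOp (p : ℕ) [NeZero p]
    (φ ψ : F1L Qbar M →ₐ[Qbar] F1pL Qbar M p)
    (hφ : ∀ σ : GalQbar, SemilinearAut.IntertwinesAlong (φ : F1L Qbar M →+* F1pL Qbar M p)
      (arithmeticGalois (F1 M) σ) (arithmeticGalois (F1p M p) σ))
    (hψ : ∀ σ : GalQbar, SemilinearAut.IntertwinesAlong (ψ : F1L Qbar M →+* F1pL Qbar M p)
      (arithmeticGalois (F1 M) σ) (arithmeticGalois (F1p M p) σ))
    (σ : GalQbar) (x : J1 M) : corrOp φ ψ (σ • x) = σ • corrOp φ ψ x := by
  by_cases h : CorrInputs φ ψ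
  · obtain ⟨h1, h2, hP, hfin, hFI, hN⟩ := h
    haveI := hP
    rw [corrOp_eq φ ψ h1 h2 hFI hfin hN, galois_smul_pic0_def, galois_smul_pic0_def]
    exact Fermat.Agent.S29.H42.pic0_correspondence_smul _ _ h1 h2 hFI hfin hN (hφ σ) (hψ σ) x
  · rw [corrOp, dif_neg h]
    simp

/-- The Galois action on `J₁(M)` commutes with `T_p`. -/
theorem galois_smul_hecke1 (p : ℕ) (σ : GalQbar) (x : J1 M) :
    hecke1 M p (σ • x) = σ • hecke1 M p x := by
  by_cases hp : p = 0
  · rw [hecke1, dif_pos hp]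
    simp
  · haveI : NeZero p := ⟨hp⟩
    rw [hecke1_eq]
    exact galois_smul_corrOp M p _ _ (intertwines_beta1 M p) (intertwines_alpha1 M p) σ x

/-- The Galois action on `J₁(M)` commutes with `T_p^t`. -/
theorem galois_smul_hecke1T (p : ℕ) (σ : GalQbar) (x : J1 M) :
    hecke1T M p (σ • x) = σ • hecke1T M p x := by
  by_cases hp : p = 0
  · rw [hecke1T, dif_pos hp]
    simp
  · haveI : NeZero p := ⟨hp⟩
    rw [hecke1T_eq]
    exact galois_smul_corrOp M p _ _ (intertwines_alpha1 M p) (intertwines_beta1 M p) σ x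

/-- The conjugate of an `L`-automorphism by the coefficientwise Galois action. -/
def conjAut (σ : GalQbar) (δ : F1Bar M ≃ₐ[Qbar] F1Bar M) : F1Bar M ≃ₐ[Qbar] F1Bar M :=
  AlgEquiv.ofRingEquiv
    (f := ((arithmeticRingAut (F1 M) σ).symm.trans (δ : F1Bar M ≃+* F1Bar M)).trans
      (arithmeticRingAut (F1 M) σ))
    (fun a => by
      show arithmeticRingAut (F1 M) σ (δ ((arithmeticRingAut (F1 M) σ).symm
        (algebraMap Qbar (F1Bar M) a))) = algebraMap Qbar (F1Bar M) a
      have h1 : (arithmeticRingAut (F1 M) σ).symm (algebraMap Qbar (F1Bar M) a)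
          = algebraMap Qbar (F1Bar M) (σ.symm a) := by
        rw [RingEquiv.symm_apply_eq, arithmeticRingAut_algebraMap, AlgEquiv.apply_symm_apply]
      rw [h1, δ.commutes, arithmeticRingAut_algebraMap, AlgEquiv.apply_symm_apply])

theorem conjAut_apply (σ : GalQbar) (δ : F1Bar M ≃ₐ[Qbar] F1Bar M) (x : F1Bar M) :
    conjAut M σ δ x
      = arithmeticRingAut (F1 M) σ (δ ((arithmeticRingAut (F1 M) σ).symm x)) := rfl

theorem arithmeticRingAut_symm_coeffEmb (σ : GalQbar) (x : F1Bar M) (z : LaurentSeries ℚ)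
    (hx : (x : LaurentSeries Qbar) = coeffEmb Qbar z) :
    (arithmeticRingAut (F1 M) σ).symm x = x := by
  rw [RingEquiv.symm_apply_eq]
  apply Subtype.ext
  rw [coe_arithmeticRingAut_apply, hx, coeffMap_coeffEmb]

theorem arithmeticRingAut_coeffEmb (σ : GalQbar) (x : F1Bar M) (z : LaurentSeries ℚ)
    (hx : (x : LaurentSeries Qbar) = coeffEmb Qbar z) :
    arithmeticRingAut (F1 M) σ x = x := by
  apply Subtype.ext
  rw [coe_arithmeticRingAut_apply, hx, coeffMap_coeffEmb]

theorem isDiamond_conjAut {d : (ZMod M)ˣ} {δ : F1Bar M ≃ₐ[Qbar] F1Bar M}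
    (hδ : IsDiamond Qbar M d δ) (σ : GalQbar) : IsDiamond Qbar M d (conjAut M σ δ) := by
  rw [isDiamond_iff]
  refine ⟨fun x hx => ?_, fun a ha => ?_⟩
  · rw [conjAut_apply]
    have h1 : (((arithmeticRingAut (F1 M) σ).symm x : F1Bar M) : LaurentSeries Qbar)
        ∈ laurentBaseChange Qbar (modularFunctionFieldFull M) := by
      have h2 : (((arithmeticRingAut (F1 M) σ).symm x : F1Bar M) : LaurentSeries Qbar)
          = coeffMap (σ.symm : Qbar →+* Qbar) (x : LaurentSeries Qbar) := rfl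
      rw [h2]
      exact coeffMap_mem_laurentBaseChange σ.symm hx
    rw [hδ.1 _ h1, RingEquiv.apply_symm_apply]
  · rw [conjAut_apply, arithmeticRingAut_symm_coeffEmb M σ _ (divGen M a) rfl,
      hδ.apply_divGenL, arithmeticRingAut_coeffEmb M σ _ (divGen M ((d : ZMod M) * a)) rfl]

theorem conjAut_refl (σ : GalQbar) : conjAut M σ AlgEquiv.refl = AlgEquiv.refl := by
  ext x
  rw [conjAut_apply]
  simp

/-- The diamond automorphism commutes with the coefficientwise Galois action. -/
theorem conjAut_diamondAut (d : (ZMod M)ˣ) (σ : GalQbar) :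
    conjAut M σ (diamondAut Qbar M d) = diamondAut Qbar M d := by
  by_cases h : ∃ τ : F1Bar M ≃ₐ[Qbar] F1Bar M, IsDiamond Qbar M d τ
  · have h1 := isDiamond_diamondAut Qbar M d h
    exact isDiamond_unique (isDiamond_conjAut M h1 σ) h1
  · rw [diamondAut, dif_neg h]
    exact conjAut_refl M σ

theorem arithmeticGalois_mul_diamond (d : (ZMod M)ˣ) (σ : GalQbar) :
    arithmeticGalois (F1 M) σ * SemilinearAut.ofAlgAut (diamondAut Qbar M d)
      = SemilinearAut.ofAlgAut (diamondAut Qbar M d) * arithmeticGalois (F1 M) σ := by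
  apply Subtype.ext
  refine Prod.ext ?_ ?_
  · apply RingEquiv.ext
    intro x
    show arithmeticRingAut (F1 M) σ (diamondAut Qbar M d x)
      = diamondAut Qbar M d (arithmeticRingAut (F1 M) σ x)
    conv_rhs => rw [← conjAut_diamondAut M d σ, conjAut_apply, RingEquiv.symm_apply_apply]
  · show (σ.toRingEquiv * 1 : Qbar ≃+* Qbar) = 1 * σ.toRingEquiv
    rw [mul_one, one_mul]

/-- The Galois action on `J₁(M)` commutes with the diamond operators. -/
theorem galois_smul_diamond1 (d : (ZMod M)ˣ) (σ : GalQbar) (x : J1 M) :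
    diamond1 M d (σ • x) = σ • diamond1 M d x := by
  rw [diamond1_apply, diamond1_apply, galois_smul_pic0_def, galois_smul_pic0_def, ← mul_smul,
    ← mul_smul, arithmeticGalois_mul_diamond]

theorem galois_smul_diamond1Inv (d : (ZMod M)ˣ) (σ : GalQbar) (x : J1 M) :
    diamond1Inv M d (σ • x) = σ • diamond1Inv M d x := by
  have h := galois_smul_diamond1 M d σ (diamond1Inv M d x)
  rw [diamond1_diamond1Inv] at h
  rw [← h, diamond1Inv_diamond1]

/-- SMOOTH for `J₁(M)`: every torsion point is fixed by an open subgroup of `G_ℚ`. -/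
theorem j1_exists_finite_level_fix_torsion {n : ℕ} (hn : n ≠ 0) (x : J1 M)
    (hx : (n : ℤ) • x = 0) :
    ∃ K : IntermediateField ℚ Qbar, FiniteDimensional ℚ K ∧
      ∀ σ : GalQbar, (∀ y ∈ K, σ y = y) → σ • x = x :=
  Fermat.Agent.S29.H42.exists_finite_level_fix_torsion (F1 M) hn x hx

end Galois

/-! ### The torsion modules `J₁(M)[m]` -/

section Torsion

variable (M m : ℕ)

local notation "Qbar" => AlgebraicClosure ℚ
local notation "GalQbar" => (AlgebraicClosure ℚ ≃ₐ[ℚ] AlgebraicClosure ℚ)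

/-- The `m`-torsion of `J₁(M)(ℚ̄)`, as a type. -/
abbrev J1T : Type := ↥(Pic0.torsion Qbar (F1Bar M) m)

theorem galois_smul_mem_torsion1 (σ : GalQbar) {x : J1 M}
    (hx : x ∈ Pic0.torsion Qbar (F1Bar M) m) : σ • x ∈ Pic0.torsion Qbar (F1Bar M) m := by
  rw [Pic0.mem_torsion] at hx ⊢
  have := map_zsmul (DistribSMul.toAddMonoidHom (J1 M) σ) (m : ℤ) x
  rw [hx, map_zero] at this
  exact this.symm

/-- The Galois action on `J₁(M)[m]`. -/
@[implicit_reducible]
def galoisActionJ1T : DistribMulAction GalQbar (J1T M m) where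
  smul σ x := ⟨σ • (x : J1 M), galois_smul_mem_torsion1 M m σ x.2⟩
  one_smul x := Subtype.ext (one_smul _ (x : J1 M))
  mul_smul σ τ x := Subtype.ext (mul_smul σ τ (x : J1 M))
  smul_zero σ := Subtype.ext (smul_zero (A := J1 M) σ)
  smul_add σ x y := Subtype.ext (smul_add σ (x : J1 M) (y : J1 M))

theorem end_mem_torsion1 (T : Module.End ℤ (J1 M)) {x : J1 M}
    (hx : x ∈ Pic0.torsion Qbar (F1Bar M) m) : T x ∈ Pic0.torsion Qbar (F1Bar M) m := by
  rw [Pic0.mem_torsion] at hx ⊢
  rw [← map_zsmul, hx, map_zero]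

/-- Restriction of an endomorphism of `J₁(M)` to the `m`-torsion. -/
def restrictT (T : Module.End ℤ (J1 M)) : Module.End ℤ (J1T M m) where
  toFun x := ⟨T (x : J1 M), end_mem_torsion1 M m T x.2⟩
  map_add' _ _ := Subtype.ext (map_add T _ _)
  map_smul' c _ := Subtype.ext (map_zsmul T c _)

@[simp]
theorem coe_restrictT (T : Module.End ℤ (J1 M)) (x : J1T M m) :
    ((restrictT M m T x : J1T M m) : J1 M) = T (x : J1 M) := rfl

/-- `T_p` on `J₁(M)[m]`. -/
def heckeT (p : ℕ) : Module.End ℤ (J1T M m) := restrictT M m (hecke1 M p)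

/-- `T_p^t` on `J₁(M)[m]`. -/
def heckeTT (p : ℕ) : Module.End ℤ (J1T M m) := restrictT M m (hecke1T M p)

/-- `⟨d⟩` on `J₁(M)[m]`. -/
def diamondT (d : (ZMod M)ˣ) : Module.End ℤ (J1T M m) := restrictT M m (diamond1 M d)

/-- `⟨d⟩⁻¹` on `J₁(M)[m]`. -/
def diamondInvT (d : (ZMod M)ˣ) : Module.End ℤ (J1T M m) := restrictT M m (diamond1Inv M d)

@[simp] theorem coe_heckeT (p : ℕ) (x : J1T M m) :
    ((heckeT M m p x : J1T M m) : J1 M) = hecke1 M p (x : J1 M) := rfl

@[simp] theorem coe_heckeTT (p : ℕ) (x : J1T M m) :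
    ((heckeTT M m p x : J1T M m) : J1 M) = hecke1T M p (x : J1 M) := rfl

@[simp] theorem coe_diamondT (d : (ZMod M)ˣ) (x : J1T M m) :
    ((diamondT M m d x : J1T M m) : J1 M) = diamond1 M d (x : J1 M) := rfl

@[simp] theorem coe_diamondInvT (d : (ZMod M)ˣ) (x : J1T M m) :
    ((diamondInvT M m d x : J1T M m) : J1 M) = diamond1Inv M d (x : J1 M) := rfl

theorem diamondInvT_comp_diamondT (d : (ZMod M)ˣ) :
    diamondInvT M m d ∘ₗ diamondT M m d = LinearMap.id := by
  ext x
  simp

theorem diamondT_comp_diamondInvT (d : (ZMod M)ˣ) :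
    diamondT M m d ∘ₗ diamondInvT M m d = LinearMap.id := by
  ext x
  simp

section Equivariance

attribute [local instance] galoisActionJ1T

theorem coe_galois_smul_J1T (σ : GalQbar) (x : J1T M m) :
    ((σ • x : J1T M m) : J1 M) = σ • (x : J1 M) := rfl

theorem galois_smul_heckeT (p : ℕ) (σ : GalQbar) (x : J1T M m) :
    heckeT M m p (σ • x) = σ • heckeT M m p x :=
  Subtype.ext (galois_smul_hecke1 M p σ (x : J1 M))

theorem galois_smul_heckeTT (p : ℕ) (σ : GalQbar) (x : J1T M m) :
    heckeTT M m p (σ • x) = σ • heckeTT M m p x :=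
  Subtype.ext (galois_smul_hecke1T M p σ (x : J1 M))

theorem galois_smul_diamondT (d : (ZMod M)ˣ) (σ : GalQbar) (x : J1T M m) :
    diamondT M m d (σ • x) = σ • diamondT M m d x :=
  Subtype.ext (galois_smul_diamond1 M d σ (x : J1 M))

theorem galois_smul_diamondInvT (d : (ZMod M)ˣ) (σ : GalQbar) (x : J1T M m) :
    diamondInvT M m d (σ • x) = σ • diamondInvT M m d x :=
  Subtype.ext (galois_smul_diamond1Inv M d σ (x : J1 M))

end Equivariance

end Torsion

end Fermat.Agent.S48.F1
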