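import Fermat.Agent.S48.H332.PkgDeg
import Fermat.Agent.S24.Mod.H564HolBase
import Fermat.Agent.S24.Inf.HNF

/-!
# S48 / Tower A1, node A1-FF (helper168) — RAISING THE LEVEL of a generic analytic datum

`D : GenData M Γ P` (helper332's generic analytic input for the field `P.F = ℚ̄(S)` of modular
functions for `Γ`, avatars in `S24.holN M`).  For `p ≥ 1`:

* `raiseS P p = S ∪ {s(q^p) : s ∈ S}`, the generators of the field of level `(Γ; p)`;
* `raiseData D p F' hF' hconj : GenData (M * p) (Γ ⊓ Γ₀(p)) (raiseField P p F' hF')`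
  with avatars `G s` (`s ∈ S`) and `τ ↦ G s (p τ)`.

The only hypothesis `hconj` says that `Γ ∩ Γ₀(p)` is carried into `Γ` by conjugation with
`diag(p, 1)`; it holds for `Γ = ±Γ₁(M)` (`p ∤ M` is not even needed for that).

Consequently (generic engine, `H332.GenData.finrank_eq`, `.pkg`) the field `ℚ̄(S, S(q^p))` has
degree `[SL₂(ℤ) : Γ ∩ Γ₀(p)]` over `ℚ̄(j)` and carries the whole local dictionary: NO second
analytic instance is needed for `F1p M p`.
-/

set_option autoImplicit false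
set_option linter.style.haveILetI false
set_option linter.unusedSectionVars false

noncomputable section

open ModularCurve HahnSeries UpperHalfPlane
open scoped MatrixGroups Manifold Real

namespace Fermat.Agent.S48.F1

open Fermat.Agent.S24 Fermat.Agent.S24.H997 Fermat.Agent.S48.H332

/-! ### `holN` and change of level -/

section HolN

variable {N : ℕ} [NeZero N]

/-- An expansion in `exp(2πiτ/N)` is an expansion in `exp(2πiτ/(Nℓ))`. -/
theorem infExp_raise {f : ℍ → ℂ} {φ : LaurentSeries ℂ} (hf : InfExp N f φ) (ℓ : ℕ) [NeZero ℓ] :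
    InfExp (N * ℓ) f (qExpand ℂ ℓ φ) := by
  have hN : 0 < N := Nat.pos_of_ne_zero (NeZero.ne N)
  have hℓ : 0 < ℓ := Nat.pos_of_ne_zero (NeZero.ne ℓ)
  have h := hf.comp_infAff (N := N * ℓ) (a := 1) (d := 1) (e := ℓ) 0 one_pos one_pos hN
    (Nat.mul_pos hN hℓ) (by ring)
  rw [infRoot_zero, infTwist_one] at h
  refine h.congr fun τ => ?_
  rw [infAff_one_zero_one]

/-- `holN N ⊆ holN (N ℓ)`. -/
theorem mem_holN_raise {f : ℍ → ℂ} (hf : f ∈ holN N) (ℓ : ℕ) [NeZero ℓ] [NeZero (N * ℓ)] :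
    f ∈ holN (N * ℓ) := by
  refine ⟨hf.1, fun g => ?_⟩
  obtain ⟨φ, hφ⟩ := hf.2 g
  exact (infExp_raise hφ ℓ).mem_expRing

/-- `f ∈ holN N ⟹ (τ ↦ f (ℓ τ)) ∈ holN (N ℓ)`. -/
theorem comp_scale_mem_holN {f : ℍ → ℂ} (hf : f ∈ holN N) (ℓ : ℕ) [NeZero ℓ] [NeZero (N * ℓ)] :
    (fun τ => f (infAff ℓ 0 1 τ)) ∈ holN (N * ℓ) := by
  have hℓ : 0 < ℓ := Nat.pos_of_ne_zero (NeZero.ne ℓ)
  have hN : 0 < N := Nat.pos_of_ne_zero (NeZero.ne N)
  refine ⟨H564.mdiff_comp_infAff hf.1 hℓ one_pos 0, fun g => ?_⟩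
  obtain ⟨γ', a, d', b, ha, hd', had, h00, h01, h10, h11⟩ := inf_exists_hnf ℓ hℓ g
  obtain ⟨φ, hφ⟩ := hf.2 γ'
  haveI : NeZero (a * a) := ⟨(Nat.mul_pos ha ha).ne'⟩
  have he : a * a * (d' * N) = a * (N * ℓ) := by
    rw [← had]; ring
  have h := hφ.comp_infAff (e := a * a) b ha hd' hN (Nat.mul_pos hN hℓ) he
  have h2 : compSL g (fun τ => f (infAff ℓ 0 1 τ))
      = fun τ => compSL γ' f (infAff a b d' τ) := by
    funext τ
    show f (infAff ℓ 0 1 (g • τ)) = f (γ' • infAff a b d' τ)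
    rw [inf_aff_smul_eq hℓ ha hd' g γ' h00 h01 h10 h11 τ]
  rw [h2]
  exact h.mem_expRing

/-- The expansion of `τ ↦ f (ℓ τ)`. -/
theorem infExp_comp_scale {f : ℍ → ℂ} {φ : LaurentSeries ℂ} (hf : InfExp N f φ) (ℓ : ℕ)
    [NeZero ℓ] : InfExp (N * ℓ) (fun τ => f (infAff ℓ 0 1 τ)) (qExpand ℂ (ℓ * ℓ) φ) := by
  have hN : 0 < N := Nat.pos_of_ne_zero (NeZero.ne N)
  have hℓ : 0 < ℓ := Nat.pos_of_ne_zero (NeZero.ne ℓ)
  haveI : NeZero (ℓ * ℓ) := ⟨(Nat.mul_pos hℓ hℓ).ne'⟩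
  have h := hf.comp_infAff (N := N * ℓ) (a := ℓ) (d := 1) (e := ℓ * ℓ) 0 hℓ one_pos hN
    (Nat.mul_pos hN hℓ) (by ring)
  rw [infRoot_zero, infTwist_one] at h
  exact h

/-- An element of `holN N` is determined by its expansion at `i∞`. -/
theorem eq_of_infExp_holN {f g : ℍ → ℂ} {φ : LaurentSeries ℂ} (hf : f ∈ holN N)
    (hg : g ∈ holN N) (h1 : InfExp N f φ) (h2 : InfExp N g φ) : f = g := by
  have hinj : Function.Injective ((expInf N).comp (holToExp N)) :=
    expInf_injective.comp (holToExp_injective N)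
  have e1 : (expInf N).comp (holToExp N) ⟨f, hf⟩ = φ := h1.expInf_eq
  have e2 : (expInf N).comp (holToExp N) ⟨g, hg⟩ = φ := h2.expInf_eq
  exact congrArg Subtype.val (hinj (e1.trans e2.symm))

end HolN

/-! ### Coefficient maps and `q ↦ q^p` -/

theorem coeffMap_qExpand_raise {R S : Type*} [CommRing R] [CommRing S] (f : R →+* S) (n : ℕ)
    [NeZero n] (x : LaurentSeries R) :
    coeffMap f (qExpand R n x) = qExpand S n (coeffMap f x) := by
  ext k
  by_cases hk : (n : ℤ) ∣ k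
  · obtain ⟨m, rfl⟩ := hk
    rw [coeffMap_coeff, qExpand_coeff_mul, qExpand_coeff_mul, coeffMap_coeff]
  · rw [coeffMap_coeff, qExpand_coeff_of_not_dvd n _ hk, qExpand_coeff_of_not_dvd n _ hk,
      map_zero]

/-- `Φ_{Mp}(s) = (Φ_M s)(z^p)`. -/
theorem Φ_raise (M p : ℕ) [NeZero M] [NeZero p] [NeZero (M * p)] (s : LaurentSeries Kbar) :
    HolBase.Φ (M * p) s = qExpand ℂ p (HolBase.Φ M s) := by
  show qExpand ℂ (M * p) (coeffMap ιK s) = qExpand ℂ p (qExpand ℂ M (coeffMap ιK s))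
  rw [qExpand_qExpand]
  exact qExpand_congr (mul_comm M p) _

/-- `Φ_{Mp}(s(q^p)) = (Φ_M s)(z^{p²})`. -/
theorem Φ_raise_qExpand (M p : ℕ) [NeZero M] [NeZero p] [NeZero (M * p)] [NeZero (p * p)]
    (s : LaurentSeries Kbar) :
    HolBase.Φ (M * p) (qExpand Kbar p s) = qExpand ℂ (p * p) (HolBase.Φ M s) := by
  show qExpand ℂ (M * p) (coeffMap ιK (qExpand Kbar p s))
    = qExpand ℂ (p * p) (qExpand ℂ M (coeffMap ιK s))
  haveI : NeZero (M * p * p) := ⟨Nat.mul_ne_zero (NeZero.ne (M * p)) (NeZero.ne p)⟩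
  haveI : NeZero (p * p * M) := ⟨Nat.mul_ne_zero (NeZero.ne (p * p)) (NeZero.ne M)⟩
  rw [coeffMap_qExpand_raise, qExpand_qExpand, qExpand_qExpand]
  exact qExpand_congr (by ring) _

/-! ### The raised datum -/

section Raise

variable {M : ℕ} [NeZero M] {Γ : Subgroup SL(2, ℤ)} {P : GenField}

/-- The generators of the field of level `(Γ; p)`: `S ∪ S(q^p)`. -/
def raiseS (P : GenField) (p : ℕ) [NeZero p] : Set (LaurentSeries Kbar) :=
  P.S ∪ (⇑(qExpand Kbar p) '' P.S)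

/-- The field of level `(Γ; p)`, presented as a `GenField`. -/
def raiseField (P : GenField) (p : ℕ) [NeZero p]
    (F' : IntermediateField Kbar (LaurentSeries Kbar))
    (hF' : F' = IntermediateField.adjoin Kbar (raiseS P p)) : GenField where
  S := raiseS P p
  F := F'
  hF := hF'
  hj := Or.inl P.hj

open Classical in
/-- The avatars of the raised datum: `G s` for `s ∈ S`, `τ ↦ G s₀ (p τ)` for `s = s₀(q^p)`. -/
def raiseG (D : GenData M Γ P) (p : ℕ) [NeZero p] (s : LaurentSeries Kbar) : ℍ → ℂ :=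
  if s ∈ P.S then D.G s
  else fun τ => D.G (Function.invFun (⇑(qExpand Kbar p)) s) (infAff p 0 1 τ)

variable (D : GenData M Γ P) (p : ℕ) [NeZero p]

theorem raiseG_of_mem {s : LaurentSeries Kbar} (hs : s ∈ P.S) : raiseG D p s = D.G s := by
  rw [raiseG, if_pos hs]

theorem raiseG_qExpand [NeZero (M * p)] {s₀ : LaurentSeries Kbar} (hs₀ : s₀ ∈ P.S) :
    raiseG D p (qExpand Kbar p s₀) = fun τ => D.G s₀ (infAff p 0 1 τ) := by
  have hp : 0 < p := Nat.pos_of_ne_zero (NeZero.ne p)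
  haveI : NeZero (p * p) := ⟨(Nat.mul_pos hp hp).ne'⟩
  by_cases hs : qExpand Kbar p s₀ ∈ P.S
  · rw [raiseG_of_mem D p hs]
    refine eq_of_infExp_holN (N := M * p) (mem_holN_raise (D.G_mem _ hs) p)
      (comp_scale_mem_holN (D.G_mem _ hs₀) p) (φ := HolBase.Φ (M * p) (qExpand Kbar p s₀)) ?_ ?_
    · rw [Φ_raise]
      exact infExp_raise (D.G_exp _ hs) p
    · rw [Φ_raise_qExpand]
      exact infExp_comp_scale (D.G_exp _ hs₀) p
  · rw [raiseG, if_neg hs]
    have hinv : Function.invFun (⇑(qExpand Kbar p)) (qExpand Kbar p s₀) = s₀ :=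
      Function.leftInverse_invFun (qExpand_injective (R := Kbar) p) s₀
    rw [hinv]

/-- **Raising the level** of a generic analytic datum. -/
def raiseData [NeZero (M * p)] (F' : IntermediateField Kbar (LaurentSeries Kbar))
    (hF' : F' = IntermediateField.adjoin Kbar (raiseS P p))
    (hconj : ∀ g ∈ Γ, g ∈ CongruenceSubgroup.Gamma0 p →
      ∃ g' ∈ Γ, ∀ τ : ℍ, infAff p 0 1 (g • τ) = g' • infAff p 0 1 τ) :
    GenData (M * p) (Γ ⊓ CongruenceSubgroup.Gamma0 p) (raiseField P p F' hF') where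
  G := raiseG D p
  G_mem := by
    rintro s (hs | ⟨s₀, hs₀, rfl⟩)
    · rw [raiseG_of_mem D p hs]
      exact mem_holN_raise (D.G_mem _ hs) p
    · rw [raiseG_qExpand D p hs₀]
      exact comp_scale_mem_holN (D.G_mem _ hs₀) p
  G_j := by
    rw [raiseG_of_mem D p P.hj]
    exact D.G_j
  G_inv := by
    rintro s (hs | ⟨s₀, hs₀, rfl⟩) g hg τ
    · rw [raiseG_of_mem D p hs]
      exact D.G_inv s hs g hg.1 τ
    · rw [raiseG_qExpand D p hs₀]
      obtain ⟨g', hg', h⟩ := hconj g hg.1 hg.2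
      show D.G s₀ (infAff p 0 1 (g • τ)) = D.G s₀ (infAff p 0 1 τ)
      rw [h τ]
      exact D.G_inv s₀ hs₀ g' hg' _
  G_distinct := by
    intro g hg
    refine ⟨D.G_distinct g fun s hs τ => ?_, ?_⟩
    · have := hg s (Or.inl hs) τ
      rwa [raiseG_of_mem D p hs] at this
    · apply Jd_distinct p g
      intro τ
      have := hg (qExpand Kbar p jBar) (Or.inr ⟨jBar, P.hj, rfl⟩) τ
      rw [raiseG_qExpand D p P.hj] at this
      simp only [D.G_j] at this
      exact this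
  G_exp := by
    have hp : 0 < p := Nat.pos_of_ne_zero (NeZero.ne p)
    haveI : NeZero (p * p) := ⟨(Nat.mul_pos hp hp).ne'⟩
    rintro s (hs | ⟨s₀, hs₀, rfl⟩)
    · rw [raiseG_of_mem D p hs, Φ_raise]
      exact infExp_raise (D.G_exp _ hs) p
    · rw [raiseG_qExpand D p hs₀, Φ_raise_qExpand]
      exact infExp_comp_scale (D.G_exp _ hs₀) p

end Raise

end Fermat.Agent.S48.F1
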